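import Fermat.Agent.S58.Defs
import Fermat.Agent.S51.Count

/-!
# S58 (E4): the trivial bound `|a_q| ≤ q`
-/

set_option autoImplicit false

namespace Fermat.Agent.S58

open WeierstrassCurve WeierstrassCurve.Affine

/-- `1 ≤ #W(𝔽_q) ≤ 2 q + 1`. -/
theorem hasse_lite (W : WeierstrassCurve ℤ) {q : ℕ} (hq : q.Prime) : |W.apOfModel q| ≤ q := by
  have : Fact q.Prime := ⟨hq⟩
  set V : WeierstrassCurve.Affine (ZMod q) := (W.reductionMod q).toAffine with hV
  have hcard : W.apOfModel q = (q : ℤ) + 1 - (Nat.card V.Point : ℤ) := by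
    rw [WeierstrassCurve.apOfModel, WeierstrassCurve.traceOfFrobenius, WeierstrassCurve.card,
      Nat.card_zmod]
  have h1 : 1 ≤ Nat.card V.Point := by
    have : Nonempty V.Point := ⟨0⟩
    exact Nat.one_le_iff_ne_zero.2 (Nat.card_ne_zero.2 ⟨this, inferInstance⟩)
  have hp0 : (Polynomial.X ^ q - Polynomial.X : Polynomial (ZMod q)) ≠ 0 :=
    FiniteField.X_pow_card_sub_X_ne_zero (ZMod q) hq.one_lt
  have hdeg : (Polynomial.X ^ q - Polynomial.X : Polynomial (ZMod q)).natDegree = q :=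
    FiniteField.X_pow_card_sub_X_natDegree_eq (ZMod q) hq.one_lt
  have h2 := (Fermat.Agent.S51.finite_and_ncard_le V _ hp0 Set.univ (by
    intro x y _ _
    simp [ZMod.pow_card])).2
  rw [Set.ncard_univ, hdeg] at h2
  rw [hcard, abs_le]
  constructor <;> omega

end Fermat.Agent.S58
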