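import Fermat.Agent.S58.EC.Slope

/-!
# S58/EC: the reduction homomorphism of a general Weierstrass equation with good reduction
over a valuation subring `O` of a field `K`, with "residue map" `π : O →+* κ`
(`π a = 0 ↔ v a < 1`).  (Generalisation of `S52/Spec/Red.lean`.)
-/

set_option autoImplicit false
set_option linter.unusedSectionVars false

namespace Fermat.Agent.S58.Red

open WeierstrassCurve WeierstrassCurve.Affine

variable {K κ : Type*} [Field K] [Field κ] [DecidableEq K] [DecidableEq κ]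

/-- `V` has coefficients in `O`, `V'` is its reduction, and `V'` is smooth. -/
structure Ctx (O : ValuationSubring K) (π : O →+* κ) (V : Affine K) (V' : Affine κ) : Prop where
  e₁ : ∃ A : O, (A : K) = V.a₁ ∧ π A = V'.a₁
  e₂ : ∃ A : O, (A : K) = V.a₂ ∧ π A = V'.a₂
  e₃ : ∃ A : O, (A : K) = V.a₃ ∧ π A = V'.a₃
  e₄ : ∃ A : O, (A : K) = V.a₄ ∧ π A = V'.a₄
  e₆ : ∃ A : O, (A : K) = V.a₆ ∧ π A = V'.a₆
  hπ : ∀ a : O, π a = 0 ↔ O.valuation (a : K) < 1
  hΔ : V'.Δ ≠ 0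

theorem mem_of_quad (O : ValuationSubring K) {y b c : K} (hb : b ∈ O) (hc : c ∈ O)
    (h : y ^ 2 + b * y = c) : y ∈ O := by
  rcases O.mem_or_inv_mem y with hy | hy
  · exact hy
  · by_cases h0 : y = 0
    · rw [h0]; exact O.zero_mem
    have : y = c * y⁻¹ - b := by
      field_simp
      linear_combination h
    rw [this]
    exact sub_mem (mul_mem hc hy) hb

variable {O : ValuationSubring K} {π : O →+* κ} {V : Affine K} {V' : Affine κ}

theorem Ctx.y_mem (C : Ctx O π V V') {x y : K} (h : V.Equation x y) (hx : x ∈ O) : y ∈ O := by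
  obtain ⟨A₁, e₁, -⟩ := C.e₁
  obtain ⟨A₂, e₂, -⟩ := C.e₂
  obtain ⟨A₃, e₃, -⟩ := C.e₃
  obtain ⟨A₄, e₄, -⟩ := C.e₄
  obtain ⟨A₆, e₆, -⟩ := C.e₆
  rw [equation_iff, ← e₁, ← e₂, ← e₃, ← e₄, ← e₆] at h
  refine mem_of_quad O (b := A₁ * x + A₃) (c := x ^ 3 + A₂ * x ^ 2 + A₄ * x + A₆) ?_ ?_ ?_
  · exact add_mem (mul_mem A₁.2 hx) A₃.2
  · exact add_mem (add_mem (add_mem (pow_mem hx 3) (mul_mem A₂.2 (pow_mem hx 2)))
      (mul_mem A₄.2 hx)) A₆.2
  · linear_combination h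

theorem Ctx.inv_mem_of_ne_zero (C : Ctx O π V V') {a : O} (ha : π a ≠ 0) : (a : K)⁻¹ ∈ O := by
  rw [← O.valuation_le_one_iff, map_inv₀]
  rcases O.valuation_lt_one_or_eq_one a with h | h
  · exact absurd ((C.hπ a).2 h) ha
  · rw [h, inv_one]

theorem Ctx.inv_mem_of_not_mem (C : Ctx O π V V') {x : K} (hx : x ∉ O) :
    ∃ z : O, x * z = 1 ∧ π z = 0 := by
  have hx0 : x ≠ 0 := fun h => hx (h ▸ O.zero_mem)
  have hv : 1 < O.valuation x := by
    rw [← not_le, O.valuation_le_one_iff]; exact hx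
  have hv' : O.valuation x⁻¹ < 1 := by
    rw [map_inv₀]; exact inv_lt_one_of_one_lt₀ hv
  refine ⟨⟨x⁻¹, (O.valuation_le_one_iff _).1 hv'.le⟩, mul_inv_cancel₀ hx0, ?_⟩
  rw [C.hπ]
  exact hv'

theorem Ctx.nonsingular_red (C : Ctx O π V V') {x y : O} (h : V.Equation (x : K) (y : K)) :
    V'.Nonsingular (π x) (π y) := by
  rw [← equation_iff_nonsingular_of_Δ_ne_zero C.hΔ]
  obtain ⟨A₁, e₁, f₁⟩ := C.e₁
  obtain ⟨A₂, e₂, f₂⟩ := C.e₂
  obtain ⟨A₃, e₃, f₃⟩ := C.e₃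
  obtain ⟨A₄, e₄, f₄⟩ := C.e₄
  obtain ⟨A₆, e₆, f₆⟩ := C.e₆
  rw [equation_iff, ← e₁, ← e₂, ← e₃, ← e₄, ← e₆] at h
  rw [equation_iff, ← f₁, ← f₂, ← f₃, ← f₄, ← f₆]
  have h2 : y ^ 2 + A₁ * x * y + A₃ * y = x ^ 3 + A₂ * x ^ 2 + A₄ * x + A₆ := by
    apply Subtype.ext
    push_cast
    exact h
  have := congrArg π h2
  simpa only [map_add, map_mul, map_pow] using this

open Classical in
/-- the reduction map (underlying function). -/
noncomputable def redFun (C : Ctx O π V V') : V.Point → V'.Point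
  | .zero => 0
  | .some x y h =>
    if hx : x ∈ O then
      .some (π ⟨x, hx⟩) (π ⟨y, C.y_mem h.1 hx⟩)
        (C.nonsingular_red (x := ⟨x, hx⟩) (y := ⟨y, C.y_mem h.1 hx⟩) h.1)
    else 0

variable (C : Ctx O π V V')

theorem redFun_zero : redFun C 0 = 0 := rfl

theorem redFun_coe {x y : K} (h : V.Nonsingular x y) (x' y' : O) (hx : x = x') (hy : y = y') :
    ∃ h', redFun C (.some x y h) = .some (π x') (π y') h' := by
  subst hx hy
  refine ⟨C.nonsingular_red h.1, ?_⟩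
  simp only [redFun, SetLike.coe_mem, dite_true, Subtype.coe_eta]

theorem redFun_not_mem {x y : K} (h : V.Nonsingular x y) (hx : x ∉ O) :
    redFun C (.some x y h) = 0 := by
  simp only [redFun, hx, dite_false]

theorem not_mem_of_redFun {x y : K} (h : V.Nonsingular x y) (h0 : redFun C (.some x y h) = 0) :
    x ∉ O := by
  intro hx
  obtain ⟨h', e⟩ := redFun_coe C h ⟨x, hx⟩ ⟨y, C.y_mem h.1 hx⟩ rfl rfl
  rw [e] at h0
  exact absurd h0 (by intro h; cases h)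

/-- `negY` over `O`. -/
theorem Ctx.exists_negY (C : Ctx O π V V') (x y : O) :
    ∃ n : O, (n : K) = V.negY x y ∧ π n = V'.negY (π x) (π y) := by
  obtain ⟨A₁, e₁, f₁⟩ := C.e₁
  obtain ⟨A₃, e₃, f₃⟩ := C.e₃
  refine ⟨-y - A₁ * x - A₃, ?_, ?_⟩
  · simp only [negY, ← e₁, ← e₃]; push_cast; ring
  · simp only [negY, ← f₁, ← f₃, map_sub, map_neg, map_mul]

/-- `addX` over `O`. -/
theorem Ctx.exists_addX (C : Ctx O π V V') (x₁ x₂ l : O) :
    ∃ n : O, (n : K) = V.addX x₁ x₂ l ∧ π n = V'.addX (π x₁) (π x₂) (π l) := by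
  obtain ⟨A₁, e₁, f₁⟩ := C.e₁
  obtain ⟨A₂, e₂, f₂⟩ := C.e₂
  refine ⟨l ^ 2 + A₁ * l - A₂ - x₁ - x₂, ?_, ?_⟩
  · simp only [addX, ← e₁, ← e₂]; push_cast; ring
  · simp only [addX, ← f₁, ← f₂, map_sub, map_add, map_pow, map_mul]

/-- `addY` over `O`. -/
theorem Ctx.exists_addY (C : Ctx O π V V') (x₁ x₂ y₁ l : O) :
    ∃ n : O, (n : K) = V.addY x₁ x₂ y₁ l ∧ π n = V'.addY (π x₁) (π x₂) (π y₁) (π l) := by
  obtain ⟨X, eX, fX⟩ := C.exists_addX x₁ x₂ l
  obtain ⟨n, en, fn⟩ := C.exists_negY X (l * (X - x₁) + y₁)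
  refine ⟨n, ?_, ?_⟩
  · rw [en, addY, negAddY, ← eX]; push_cast; rfl
  · rw [fn, addY, negAddY, ← fX]; simp only [map_sub, map_add, map_mul]

theorem redFun_neg (P : V.Point) : redFun C (-P) = -redFun C P := by
  rcases P with _ | ⟨x, y, h⟩
  · change redFun C (-0) = -(0 : V'.Point)
    rw [neg_zero, neg_zero]; rfl
  · rw [Point.neg_some]
    by_cases hx : x ∈ O
    · have hy := C.y_mem h.1 hx
      obtain ⟨n, en, fn⟩ := C.exists_negY ⟨x, hx⟩ ⟨y, hy⟩
      obtain ⟨h1, e1⟩ := redFun_coe C h ⟨x, hx⟩ ⟨y, hy⟩ rfl rfl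
      obtain ⟨h2, e2⟩ := redFun_coe C ((nonsingular_neg x y).2 h) ⟨x, hx⟩ n rfl en.symm
      rw [e1, e2, Point.neg_some]
      simp only [fn]
    · rw [redFun_not_mem C h hx, redFun_not_mem C _ hx, neg_zero]

/-- additivity on integral points. -/
theorem redFun_add_int (x₁ y₁ x₂ y₂ : O)
    (h₁ : V.Nonsingular (x₁ : K) (y₁ : K)) (h₂ : V.Nonsingular (x₂ : K) (y₂ : K)) :
    redFun C (.some _ _ h₁ + .some _ _ h₂) =
      redFun C (.some _ _ h₁) + redFun C (.some _ _ h₂) := by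
  obtain ⟨k₁, e₁⟩ := redFun_coe C h₁ x₁ y₁ rfl rfl
  obtain ⟨k₂, e₂⟩ := redFun_coe C h₂ x₂ y₂ rfl rfl
  obtain ⟨n, en, fn⟩ := C.exists_negY x₂ y₂
  obtain ⟨A₁, a₁, b₁⟩ := C.e₁
  obtain ⟨A₂, a₂, b₂⟩ := C.e₂
  obtain ⟨A₄, a₄, b₄⟩ := C.e₄
  rw [e₁, e₂]
  by_cases hbar : π x₁ = π x₂ ∧ π y₁ = V'.negY (π x₂) (π y₂)
  · rw [Point.add_of_Y_eq hbar.1 hbar.2]
    by_cases hne : (x₁ : K) = x₂ ∧ (y₁ : K) = V.negY x₂ y₂
    · rw [Point.add_of_Y_eq hne.1 hne.2]; rfl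
    · obtain ⟨l, hl1, hl2⟩ := exists_slope h₁.1 h₂.1 hne
      obtain ⟨h₃, e₃⟩ := add_some_of_slope h₁ h₂ hne hl1 hl2
      rw [e₃]
      apply redFun_not_mem
      intro hmem
      have hl : l ∈ O := by
        refine mem_of_quad O (b := A₁) (c := V.addX x₁ x₂ l + A₂ + x₁ + x₂) A₁.2
          (add_mem (add_mem (add_mem hmem A₂.2) x₁.2) x₂.2) ?_
        simp only [addX, a₁, a₂]
        ring
      lift l to O using hl
      rw [← en, ← a₁, ← a₂, ← a₄] at hl2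
      have hl1' : l * (x₁ - x₂) = y₁ - y₂ := by
        apply Subtype.ext; push_cast; exact hl1
      have hl2' : l * (y₁ - n) = x₁ ^ 2 + x₁ * x₂ + x₂ ^ 2 + A₂ * (x₁ + x₂) + A₄ - A₁ * y₁ := by
        apply Subtype.ext; push_cast; exact hl2
      have g1 := congrArg π hl1'
      have g2 := congrArg π hl2'
      simp only [map_add, map_mul, map_pow, map_sub] at g1 g2
      rw [fn, b₁, b₂, b₄] at g2
      have hyy : π y₁ = π y₂ := by
        rw [hbar.1, sub_self, mul_zero] at g1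
        exact (sub_eq_zero.1 g1.symm)
      rcases ((nonsingular_iff _ _).1 k₁).2 with h | h
      · apply h
        rw [← hbar.2, sub_self, mul_zero, ← hbar.1] at g2
        linear_combination g2
      · apply h
        have := hbar.2
        rw [← hbar.1, ← hyy] at this
        simpa only [negY] using this
  · have hne : ¬ ((x₁ : K) = x₂ ∧ (y₁ : K) = V.negY x₂ y₂) := by
      rintro ⟨h1, h2⟩
      apply hbar
      have h1' : x₁ = x₂ := Subtype.ext h1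
      have h2' : y₁ = n := by apply Subtype.ext; rw [en]; exact h2
      rw [h1', h2', fn]
      exact ⟨rfl, rfl⟩
    obtain ⟨l, hl1, hl2⟩ := exists_slope h₁.1 h₂.1 hne
    obtain ⟨h₃, e₃⟩ := add_some_of_slope h₁ h₂ hne hl1 hl2
    rw [← en, ← a₁, ← a₂, ← a₄] at hl2
    have hl : l ∈ O := by
      by_cases hx : π x₁ = π x₂
      · have hy : π (y₁ - n) ≠ 0 := by
          rw [map_sub, fn]
          intro h
          exact hbar ⟨hx, sub_eq_zero.1 h⟩
        have hinv := C.inv_mem_of_ne_zero hy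
        have h0 : ((y₁ - n : O) : K) ≠ 0 := by
          intro h
          apply hy
          rw [show y₁ - n = 0 from Subtype.ext h, map_zero]
        have : l = (x₁ ^ 2 + x₁ * x₂ + x₂ ^ 2 + A₂ * (x₁ + x₂) + A₄ - A₁ * y₁ : O) *
            ((y₁ - n : O) : K)⁻¹ := by
          rw [eq_mul_inv_iff_mul_eq₀ h0]
          push_cast
          exact hl2
        rw [this]
        exact mul_mem (SetLike.coe_mem _) hinv
      · have hy : π (x₁ - x₂) ≠ 0 := by
          rw [map_sub]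
          exact sub_ne_zero.2 hx
        have hinv := C.inv_mem_of_ne_zero hy
        have h0 : ((x₁ - x₂ : O) : K) ≠ 0 := by
          intro h
          apply hy
          rw [show x₁ - x₂ = 0 from Subtype.ext h, map_zero]
        have : l = (y₁ - y₂ : O) * ((x₁ - x₂ : O) : K)⁻¹ := by
          rw [eq_mul_inv_iff_mul_eq₀ h0]
          push_cast
          exact hl1
        rw [this]
        exact mul_mem (SetLike.coe_mem _) hinv
    lift l to O using hl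
    have hl1' : l * (x₁ - x₂) = y₁ - y₂ := by
      apply Subtype.ext; push_cast; exact hl1
    have hl2' : l * (y₁ - n) = x₁ ^ 2 + x₁ * x₂ + x₂ ^ 2 + A₂ * (x₁ + x₂) + A₄ - A₁ * y₁ := by
      apply Subtype.ext; push_cast; exact hl2
    have g1 := congrArg π hl1'
    have g2 := congrArg π hl2'
    simp only [map_add, map_mul, map_pow, map_sub] at g1 g2
    rw [fn, b₁, b₂, b₄] at g2
    obtain ⟨k₃, f₃⟩ := add_some_of_slope k₁ k₂ hbar g1 g2
    obtain ⟨X, eX, fX⟩ := C.exists_addX x₁ x₂ l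
    obtain ⟨Y, eY, fY⟩ := C.exists_addY x₁ x₂ y₁ l
    obtain ⟨k₄, e₄⟩ := redFun_coe C h₃ X Y eX.symm eY.symm
    rw [e₃, e₄, f₃]
    simp only [fX, fY]

/-- the kernel of reduction is closed under addition. -/
theorem redFun_ker_add (P Q : V.Point) (hP : redFun C P = 0) (hQ : redFun C Q = 0) :
    redFun C (P + Q) = 0 := by
  rcases P with _ | ⟨x₁, y₁, h₁⟩
  · change redFun C (0 + Q) = 0
    rwa [zero_add]
  rcases Q with _ | ⟨x₂, y₂, h₂⟩
  · change redFun C (_ + 0) = 0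
    rwa [add_zero]
  have hx₁ := not_mem_of_redFun C h₁ hP
  have hx₂ := not_mem_of_redFun C h₂ hQ
  obtain ⟨c, hc, hS, hT, hU⟩ := S05.addSub (Point.some x₁ y₁ h₁ : V.Point) (Point.some x₂ y₂ h₂)
  generalize (Point.some x₁ y₁ h₁ - Point.some x₂ y₂ h₂ : V.Point) = D at hS hT hU
  generalize (Point.some x₁ y₁ h₁ + Point.some x₂ y₂ h₂ : V.Point) = R at hS hT hU ⊢
  rcases R with _ | ⟨x₃, y₃, h₃⟩
  · rfl
  apply redFun_not_mem
  intro hx₃
  simp only [S05.pX_some, S05.pZ_some, S05.asS, S05.asT, S05.asU] at hS hT hU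
  obtain ⟨hb2, hb4, hb6, hb8⟩ := S05.kernelRed_b_mem (W := V) O
    (by obtain ⟨A, e, -⟩ := C.e₁; rw [← e]; exact A.2)
    (by obtain ⟨A, e, -⟩ := C.e₂; rw [← e]; exact A.2)
    (by obtain ⟨A, e, -⟩ := C.e₃; rw [← e]; exact A.2)
    (by obtain ⟨A, e, -⟩ := C.e₄; rw [← e]; exact A.2)
    (by obtain ⟨A, e, -⟩ := C.e₆; rw [← e]; exact A.2)
  generalize V.b₂ = b2 at hS hT hb2
  generalize V.b₄ = b4 at hS hT hb4
  generalize V.b₆ = b6 at hS hT hb6
  generalize V.b₈ = b8 at hS hT hb8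
  obtain ⟨z₁, hz₁, hπ₁⟩ := C.inv_mem_of_not_mem hx₁
  obtain ⟨z₂, hz₂, hπ₂⟩ := C.inv_mem_of_not_mem hx₂
  have heq : ((x₁ + x₂) ^ 2 - 4 * (x₁ * x₂)) * x₃ ^ 2
      - (2 * (x₁ + x₂) * (x₁ * x₂) + b2 * (x₁ * x₂) + b4 * (x₁ + x₂) + b6) * x₃
      + ((x₁ * x₂) ^ 2 - b4 * (x₁ * x₂) - b6 * (x₁ + x₂) - b8) = 0 := by
    apply mul_left_cancel₀ hc
    linear_combination (-x₃ ^ 2) * hU + x₃ * hT - hS
  have hs : x₁ * x₂ * ((z₁ : K) * z₂) = 1 := by
    linear_combination (x₂ * z₂) * hz₁ + hz₂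
  have ht : (x₁ + x₂) * ((z₁ : K) * z₂) = z₁ + z₂ := by
    linear_combination (z₂ : K) * hz₁ + (z₁ : K) * hz₂
  have key : (((z₁ : K) + z₂) ^ 2 - 4 * (z₁ * z₂)) * x₃ ^ 2
      - (2 * ((z₁ : K) + z₂) + b2 * (z₁ * z₂) + b4 * (z₁ + z₂) * (z₁ * z₂)
          + b6 * (z₁ * z₂) ^ 2) * x₃
      + (1 - b4 * (z₁ * z₂) - b6 * (z₁ + z₂) * (z₁ * z₂) - b8 * (z₁ * z₂) ^ 2) = 0 := by
    linear_combination ((z₁ : K) * z₂) ^ 2 * heq
      + (4 * ((z₁ : K) * z₂) * x₃ ^ 2 + 2 * x₃ * ((x₁ + x₂) * ((z₁ : K) * z₂))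
          + b2 * ((z₁ : K) * z₂) * x₃ - (x₁ * x₂ * ((z₁ : K) * z₂) + 1)
          + b4 * ((z₁ : K) * z₂)) * hs
      + (-((x₁ + x₂) * ((z₁ : K) * z₂) + ((z₁ : K) + z₂)) * x₃ ^ 2
          + 2 * x₃ + b4 * ((z₁ : K) * z₂) * x₃ + b6 * ((z₁ : K) * z₂)) * ht
  lift x₃ to O using hx₃
  lift b2 to O using hb2
  lift b4 to O using hb4
  lift b6 to O using hb6
  lift b8 to O using hb8
  have key' : ((z₁ + z₂) ^ 2 - 4 * (z₁ * z₂)) * x₃ ^ 2
      - (2 * (z₁ + z₂) + b2 * (z₁ * z₂) + b4 * (z₁ + z₂) * (z₁ * z₂) + b6 * (z₁ * z₂) ^ 2) * x₃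
      + (1 - b4 * (z₁ * z₂) - b6 * (z₁ + z₂) * (z₁ * z₂) - b8 * (z₁ * z₂) ^ 2) = 0 := by
    apply Subtype.ext; push_cast; exact key
  have g := congrArg π key'
  simp only [map_add, map_mul, map_pow, map_sub, hπ₁, hπ₂, map_one, map_zero] at g
  simp at g

theorem redFun_add (P Q : V.Point) : redFun C (P + Q) = redFun C P + redFun C Q := by
  -- integral points
  have hint : ∀ P Q : V.Point, redFun C P ≠ 0 → redFun C Q ≠ 0 →
      redFun C (P + Q) = redFun C P + redFun C Q := by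
    intro P Q hP hQ
    rcases P with _ | ⟨x₁, y₁, h₁⟩
    · exact absurd rfl hP
    rcases Q with _ | ⟨x₂, y₂, h₂⟩
    · exact absurd rfl hQ
    have hx₁ : x₁ ∈ O := by
      by_contra h; exact hP (redFun_not_mem C h₁ h)
    have hx₂ : x₂ ∈ O := by
      by_contra h; exact hQ (redFun_not_mem C h₂ h)
    have hy₁ := C.y_mem h₁.1 hx₁
    have hy₂ := C.y_mem h₂.1 hx₂
    exact redFun_add_int C ⟨x₁, hx₁⟩ ⟨y₁, hy₁⟩ ⟨x₂, hx₂⟩ ⟨y₂, hy₂⟩ h₁ h₂
  -- mixed case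
  have hmix : ∀ P Q : V.Point, redFun C P ≠ 0 → redFun C Q = 0 →
      redFun C (P + Q) = redFun C P + redFun C Q := by
    intro P Q hP hQ
    have hS : redFun C (P + Q) ≠ 0 := by
      intro h0
      apply hP
      have := redFun_ker_add C (P + Q) (-Q) h0 (by rw [redFun_neg, hQ, neg_zero])
      rwa [add_neg_cancel_right] at this
    have h1 := hint (P + Q) (-P) hS (by rw [redFun_neg]; exact neg_ne_zero.2 hP)
    rw [show P + Q + -P = Q by abel, hQ, redFun_neg] at h1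
    rw [hQ, add_zero]
    exact (add_neg_eq_zero.1 h1.symm)
  by_cases hP : redFun C P = 0
  · by_cases hQ : redFun C Q = 0
    · rw [redFun_ker_add C P Q hP hQ, hP, hQ, add_zero]
    · rw [add_comm P Q, hmix Q P hQ hP, add_comm]
  · by_cases hQ : redFun C Q = 0
    · exact hmix P Q hP hQ
    · exact hint P Q hP hQ

/-- **the reduction homomorphism**. -/
noncomputable def red : V.Point →+ V'.Point where
  toFun := redFun C
  map_zero' := rfl
  map_add' := redFun_add C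

theorem red_coe {x y : K} (h : V.Nonsingular x y) (x' y' : O) (hx : x = x') (hy : y = y') :
    ∃ h', red C (.some x y h) = .some (π x') (π y') h' :=
  redFun_coe C h x' y' hx hy

theorem red_not_mem {x y : K} (h : V.Nonsingular x y) (hx : x ∉ O) : red C (.some x y h) = 0 :=
  redFun_not_mem C h hx

/-- the reduction homomorphism is injective on `n`-torsion, `n` invertible in the residue field. -/
theorem eq_zero_of_red_eq_zero {n : ℕ} (hn : (n : κ) ≠ 0) (P : V.Point)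
    (hnP : n • P = 0) (hP : red C P = 0) : P = 0 := by
  rcases P with _ | ⟨x, y, h⟩
  · rfl
  exfalso
  have hx : x ∉ O := not_mem_of_redFun C h hP
  have hv : O.valuation (n : K) = 1 := by
    rcases O.valuation_lt_one_or_eq_one (n : O) with h1 | h1
    · exact absurd ((C.hπ _).2 h1) (by rwa [map_natCast])
    · exact_mod_cast h1
  obtain ⟨hb2, hb4, hb6, hb8⟩ := S05.kernelRed_b_mem (W := V) O
    (by obtain ⟨A, e, -⟩ := C.e₁; rw [← e]; exact A.2)
    (by obtain ⟨A, e, -⟩ := C.e₂; rw [← e]; exact A.2)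
    (by obtain ⟨A, e, -⟩ := C.e₃; rw [← e]; exact A.2)
    (by obtain ⟨A, e, -⟩ := C.e₄; rw [← e]; exact A.2)
    (by obtain ⟨A, e, -⟩ := C.e₆; rw [← e]; exact A.2)
  exact S05.kernelRed_nsmul_some_ne_zero O hb2 hb4 hb6 hb8 hv h hx hnP

end Fermat.Agent.S58.Red
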