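import Fermat.Agent.S58.Defs
import Fermat.Agent.S58.EC.Red
import Fermat.Agent.S29.FDFixed

/-!
# S58/EC: reduction of `E(ℚ̄)` at a valuation subring `A` of `ℚ̄` over a good prime `ℓ`
-/

set_option autoImplicit false

namespace Fermat.Agent.S58

open WeierstrassCurve WeierstrassCurve.Affine Polynomial
open scoped Pointwise

/-- the residue field of a valuation subring of `ℚ̄` is algebraically closed. -/
theorem isAlgClosed_kap (A : ValuationSubring Qb) : IsAlgClosed (Kap A) := by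
  apply IsAlgClosed.of_exists_root
  intro q hq hirr
  have hmem : q ∈ Polynomial.lifts (IsLocalRing.residue A) := by
    rw [Polynomial.mem_lifts]
    exact Polynomial.map_surjective _ IsLocalRing.residue_surjective q
  obtain ⟨Q, hQ, hdeg, hmonic⟩ := Polynomial.lifts_and_degree_eq_and_monic hmem hq
  have hdeg' : (Q.map (algebraMap A Qb)).degree ≠ 0 := by
    rw [hmonic.degree_map, hdeg]
    exact (Polynomial.degree_pos_of_irreducible hirr).ne'
  obtain ⟨z, hz⟩ := IsAlgClosed.exists_root _ hdeg'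
  have hz1 : IsIntegral A z := by
    refine ⟨Q, hmonic, ?_⟩
    rwa [IsRoot.def, eval_map] at hz
  obtain ⟨z', hz'⟩ := (IsIntegrallyClosed.isIntegral_iff (R := A) (K := Qb)).mp hz1
  have hz3 : Q.eval z' = 0 := by
    have : algebraMap A Qb (Q.eval z') = 0 := by
      rw [← Polynomial.eval₂_at_apply, ← Polynomial.eval_map, hz']
      exact hz
    exact (FaithfulSMul.algebraMap_injective A Qb) (by rw [this, map_zero])
  refine ⟨IsLocalRing.residue A z', ?_⟩
  rw [← hQ, Polynomial.eval_map, Polynomial.eval₂_at_apply, hz3, map_zero]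

theorem delta_kap_ne_zero (W : WeierstrassCurve ℤ) {ℓ : ℕ} (hℓ : ℓ.Prime) (hΔ : ¬ (ℓ : ℤ) ∣ W.Δ)
    (A : ValuationSubring Qb) (hA : A.LiesOverPrime ℓ) : (W⁄(Kap A)).Δ ≠ 0 := by
  have := Fermat.Agent.S29.FDFixed.charP_residue A hℓ hA
  rw [show (W⁄(Kap A)).Δ = algebraMap ℤ (Kap A) W.Δ from WeierstrassCurve.map_Δ W _, eq_intCast,
    Ne, CharP.intCast_eq_zero_iff (Kap A) ℓ]
  exact hΔ

/-- the reduction context at `A`. -/
theorem ctxA (W : WeierstrassCurve ℤ) (A : ValuationSubring Qb) (hΔ : (W⁄(Kap A)).Δ ≠ 0) :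
    Red.Ctx A (IsLocalRing.residue A) (W⁄Qb) (W⁄(Kap A)) where
  e₁ := ⟨(W.a₁ : A), by simp [WeierstrassCurve.baseChange], by
    simp [WeierstrassCurve.baseChange]⟩
  e₂ := ⟨(W.a₂ : A), by simp [WeierstrassCurve.baseChange], by
    simp [WeierstrassCurve.baseChange]⟩
  e₃ := ⟨(W.a₃ : A), by simp [WeierstrassCurve.baseChange], by
    simp [WeierstrassCurve.baseChange]⟩
  e₄ := ⟨(W.a₄ : A), by simp [WeierstrassCurve.baseChange], by
    simp [WeierstrassCurve.baseChange]⟩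
  e₆ := ⟨(W.a₆ : A), by simp [WeierstrassCurve.baseChange], by
    simp [WeierstrassCurve.baseChange]⟩
  hπ := fun a => by
    rw [IsLocalRing.residue_eq_zero_iff, ValuationSubring.valuation_lt_one_iff]
  hΔ := hΔ

/-- reduction at `A`. -/
noncomputable def redA (W : WeierstrassCurve ℤ) (A : ValuationSubring Qb)
    (hΔ : (W⁄(Kap A)).Δ ≠ 0) : EP W →+ (W⁄(Kap A)).Point :=
  Red.red (ctxA W A hΔ)

theorem frobPt_some (W : WeierstrassCurve ℤ) (ℓ : ℕ) [Fact ℓ.Prime] (k : Type*) [Field k]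
    [CharP k ℓ] [DecidableEq k] {x y : k} (h : (W⁄k).Nonsingular x y) :
    ∃ h', frobPt W ℓ k (Point.some x y h) = Point.some (x ^ ℓ) (y ^ ℓ) h' := ⟨_, rfl⟩

/-- reduction intertwines a Frobenius lift with the Frobenius endomorphism. -/
theorem redA_frob (W : WeierstrassCurve ℤ) {ℓ : ℕ} [Fact ℓ.Prime] (A : ValuationSubring Qb)
    [CharP (Kap A) ℓ] (hΔ : (W⁄(Kap A)).Δ ≠ 0) (σ : GQ) (hσ : A.IsFrobeniusAt σ ℓ) (Q : EP W) :
    redA W A hΔ (σ • Q) = frobPt W ℓ (Kap A) (redA W A hΔ Q) := by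
  have hmem : ∀ z : Qb, σ z ∈ A ↔ z ∈ A := by
    intro z
    have hd : σ • A = A := hσ.mem_decompositionSubgroup
    conv_lhs => rw [← hd]
    exact ValuationSubring.smul_mem_pointwise_smul_iff
  have hres : ∀ (z : Qb) (hz : z ∈ A) (hz' : σ z ∈ A),
      IsLocalRing.residue A ⟨σ z, hz'⟩ = IsLocalRing.residue A ⟨z, hz⟩ ^ ℓ := by
    intro z hz hz'
    rw [← hσ.smul_residue_eq (IsLocalRing.residue A ⟨z, hz⟩),
      ← IsLocalRing.ResidueField.residue_smul]
    rfl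
  rcases Q with _ | ⟨x, y, h⟩
  · change redA W A hΔ 0 = frobPt W ℓ (Kap A) (redA W A hΔ 0)
    rw [map_zero]
    exact (map_zero (frobPt W ℓ (Kap A))).symm
  · obtain ⟨h', e⟩ : ∃ h', σ • (Point.some x y h : EP W) = Point.some (σ x) (σ y) h' := ⟨_, rfl⟩
    rw [e]
    by_cases hx : x ∈ A
    · have hy := (ctxA W A hΔ).y_mem h.1 hx
      obtain ⟨h1, e1⟩ := Red.red_coe (ctxA W A hΔ) h ⟨x, hx⟩ ⟨y, hy⟩ rfl rfl
      obtain ⟨h2, e2⟩ := Red.red_coe (ctxA W A hΔ) h' ⟨σ x, (hmem x).2 hx⟩ ⟨σ y, (hmem y).2 hy⟩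
        rfl rfl
      obtain ⟨h3, e3⟩ := frobPt_some W ℓ (Kap A) h1
      rw [redA, e1, e2]
      refine Eq.trans ?_ e3.symm
      exact (Point.some.injEq ..).mpr ⟨hres x hx _, hres y hy _⟩
    · rw [redA, Red.red_not_mem _ h hx, Red.red_not_mem _ h' (fun hc => hx ((hmem x).1 hc))]
      exact (map_zero (frobPt W ℓ (Kap A))).symm

end Fermat.Agent.S58
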