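import Fermat.Agent.S58.Defs
import Fermat.Agent.S13.Ladder
import Fermat.Agent.S51.Exist
import Fermat.Agent.S51.Count

/-!
# S58 (E3): torsion points of `E(ℚ̄)`: existence of points of exact order `p ^ n`, finite level fields
-/

set_option autoImplicit false
set_option linter.unusedSectionVars false

namespace Fermat.Agent.S58

open WeierstrassCurve WeierstrassCurve.Affine Polynomial Fermat.Agent.S05 Fermat.Agent.S13

section Gen

variable {K : Type*} [Field K] [DecidableEq K] [CharZero K] [IsAlgClosed K]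
  (V : WeierstrassCurve.Affine K)

theorem tors_B_ne_zero {m : ℕ} (hm : m ≠ 0) : (lad V m).2 ≠ 0 := by
  intro h
  have := (lad_isLead V m).2.2
  rw [h, mul_zero, coeff_zero] at this
  exact pow_ne_zero 2 (Nat.cast_ne_zero.2 hm) this.symm

theorem tors_B_eval (m : ℕ) {x y : K} (h : V.Nonsingular x y) :
    (lad V m).2.eval x = 0 ↔ m • Point.some x y h = 0 := by
  obtain ⟨c, hc, -, hB⟩ := lad_eval V h m
  rw [hB, mul_eq_zero, pZ_eq_zero_iff]
  simp [hc]

theorem tors_B_isLead {m : ℕ} (hm : m ≠ 0) : IsLead (lad V m).2 (m ^ 2 - 1) ((m : K) ^ 2) := by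
  apply IsLead.of_X_mul
  have h1 : m ^ 2 - 1 + 1 = m ^ 2 := Nat.sub_add_cancel (Nat.one_le_iff_ne_zero.2 (pow_ne_zero 2 hm))
  rw [h1]
  exact (lad_isLead V m).2

/-- `E(K)` is divisible. -/
theorem exists_nsmul_eq (hΔ : V.Δ ≠ 0) {m : ℕ} (hm : m ≠ 0) (R : V.Point) :
    ∃ P : V.Point, m • P = R := by
  rcases R with _ | ⟨xR, yR, hR⟩
  · exact ⟨0, smul_zero _⟩
  have hm2 : m ^ 2 ≠ 0 := pow_ne_zero 2 hm
  set f : K[X] := (lad V m).1 - C xR * (lad V m).2 with hf
  have hc : f.coeff (m ^ 2) = 1 := by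
    rw [hf, coeff_sub, coeff_C_mul, (lad_isLead V m).1.2,
      coeff_eq_zero_of_natDegree_lt (lt_of_le_of_lt (tors_B_isLead V hm).1 (by omega)), mul_zero,
      sub_zero]
  have hdeg : f.degree ≠ 0 := by
    intro h0
    have h1 : f.natDegree = 0 := natDegree_eq_of_degree_eq_some h0
    rw [coeff_eq_zero_of_natDegree_lt (by omega)] at hc
    exact zero_ne_one hc
  obtain ⟨x, hx⟩ := IsAlgClosed.exists_root f hdeg
  obtain ⟨y, h⟩ := Fermat.Agent.S51.exists_nonsingular V hΔ x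
  obtain ⟨c, hc0, hA, hB⟩ := lad_eval V h m
  rw [IsRoot.def, hf, eval_sub, eval_mul, eval_C, hA, hB] at hx
  have key : pX (m • Point.some x y h) = xR * pZ (m • Point.some x y h) := by
    apply mul_left_cancel₀ hc0
    linear_combination hx
  rcases hmP : m • Point.some x y h with _ | ⟨x', y', h'⟩
  · rw [hmP] at key
    have : (1 : K) = xR * 0 := key
    simp at this
  · rw [hmP] at key
    have hx' : x' = xR := by simpa using key
    subst hx'
    rcases Affine.Y_eq_of_X_eq h'.1 hR.1 rfl with hy | hy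
    · subst hy
      exact ⟨_, hmP⟩
    · refine ⟨-Point.some x y h, ?_⟩
      rw [smul_neg, hmP, Point.neg_some]
      subst hy
      simp only [Affine.negY_negY]

/-- a point of exact order `p`. -/
theorem exists_order_prime (hΔ : V.Δ ≠ 0) {p : ℕ} (hp : p.Prime) :
    ∃ Q : V.Point, addOrderOf Q = p := by
  have hL := tors_B_isLead V hp.ne_zero
  have hp2 : 2 ≤ p := hp.two_le
  have h4 : 4 ≤ p ^ 2 := by nlinarith
  have hdeg : (lad V p).2.degree ≠ 0 := by
    intro h0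
    have h1 : (lad V p).2.natDegree = 0 := natDegree_eq_of_degree_eq_some h0
    have h2 := hL.2
    rw [coeff_eq_zero_of_natDegree_lt (by omega)] at h2
    exact pow_ne_zero 2 (Nat.cast_ne_zero.2 hp.ne_zero) h2.symm
  obtain ⟨x, hx⟩ := IsAlgClosed.exists_root _ hdeg
  obtain ⟨y, h⟩ := Fermat.Agent.S51.exists_nonsingular V hΔ x
  have : Fact p.Prime := ⟨hp⟩
  exact ⟨Point.some x y h, addOrderOf_eq_prime ((tors_B_eval V p h).1 hx) (by
    intro h0
    exact Point.some_ne_zero h h0)⟩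

theorem exists_order_gen (hΔ : V.Δ ≠ 0) {p : ℕ} (hp : p.Prime) (n : ℕ) :
    ∃ Q : V.Point, addOrderOf Q = p ^ n := by
  rcases n with _ | n
  · exact ⟨0, by simp⟩
  induction n with
  | zero => simpa using exists_order_prime V hΔ hp
  | succ n ih =>
    obtain ⟨Q, hQ⟩ := ih
    obtain ⟨P, hP⟩ := exists_nsmul_eq V hΔ hp.ne_zero Q
    have : Fact p.Prime := ⟨hp⟩
    refine ⟨P, addOrderOf_eq_prime_pow ?_ ?_⟩
    · rw [pow_succ, mul_nsmul', hP, ← addOrderOf_dvd_iff_nsmul_eq_zero, hQ]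
      intro hd
      have := Nat.pow_dvd_pow_iff_le_right hp.one_lt |>.1 hd
      omega
    · rw [pow_succ, mul_nsmul', hP, ← hQ]
      exact addOrderOf_nsmul_eq_zero Q

theorem finite_tors {m : ℕ} (hm : m ≠ 0) : {Q : V.Point | m • Q = 0}.Finite :=
  (Fermat.Agent.S51.finite_and_ncard_le V _ (tors_B_ne_zero V hm) _
    (fun _ _ h hmem => (tors_B_eval V m h).2 hmem)).1

/-- the coordinates of a point. -/
def crd : V.Point → K × K
  | .zero => (0, 0)
  | .some x y _ => (x, y)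

end Gen

theorem baseChange_Δ_ne_zero (W : WeierstrassCurve ℤ) (hΔ0 : W.Δ ≠ 0) : (W⁄Qb).Δ ≠ 0 := by
  have h : (W⁄Qb).Δ = algebraMap ℤ Qb W.Δ := WeierstrassCurve.map_Δ W (algebraMap ℤ Qb)
  rw [h]
  simpa using hΔ0

/-- there is a point of exact order `p ^ n`. -/
theorem exists_order (W : WeierstrassCurve ℤ) (hΔ0 : W.Δ ≠ 0) {p : ℕ} (hp : p.Prime) (n : ℕ) :
    ∃ Q : EP W, addOrderOf Q = p ^ n :=
  exists_order_gen (W⁄Qb) (baseChange_Δ_ne_zero W hΔ0) hp n

/-- a number field over which `E[m]` and `μ_m` are rational. -/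
theorem exists_level (W : WeierstrassCurve ℤ) (hΔ0 : W.Δ ≠ 0) {m : ℕ} (hm : m ≠ 0) :
    ∃ L : IntermediateField ℚ Qb, FiniteDimensional ℚ L ∧
      ∀ σ : GQ, (∀ x ∈ L, σ x = x) →
        (∀ Q : EP W, m • Q = 0 → σ • Q = Q) ∧ ∀ ζ : Qb, ζ ^ m = 1 → σ ζ = ζ := by
  have hS := finite_tors (W⁄Qb) hm
  set S : Set (EP W) := {Q | m • Q = 0} with hSdef
  have hμ : {ζ : Qb | ζ ^ m = 1}.Finite := by
    refine Set.Finite.subset (nthRoots m (1 : Qb)).toFinset.finite_toSet ?_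
    intro ζ hζ
    simpa [mem_nthRoots (Nat.pos_of_ne_zero hm)] using hζ
  set T : Set Qb := (fun Q => (crd (W⁄Qb) Q).1) '' S ∪ (fun Q => (crd (W⁄Qb) Q).2) '' S ∪
    {ζ : Qb | ζ ^ m = 1} with hT
  have hTfin : T.Finite := ((hS.image _).union (hS.image _)).union hμ
  have : Finite T := hTfin
  refine ⟨IntermediateField.adjoin ℚ T,
    IntermediateField.finiteDimensional_adjoin (fun x _ => (AlgebraicClosure.isAlgebraic ℚ).isIntegral.isIntegral x), ?_⟩
  intro σ hσ
  have hσT : ∀ x ∈ T, σ x = x := fun x hx => hσ x (IntermediateField.subset_adjoin ℚ T hx)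
  refine ⟨?_, fun ζ hζ => hσT ζ (Or.inr hζ)⟩
  intro Q hQ
  have h1 : σ (crd (W⁄Qb) Q).1 = (crd (W⁄Qb) Q).1 := hσT _ (Or.inl (Or.inl ⟨Q, hQ, rfl⟩))
  have h2 : σ (crd (W⁄Qb) Q).2 = (crd (W⁄Qb) Q).2 := hσT _ (Or.inl (Or.inr ⟨Q, hQ, rfl⟩))
  rcases Q with _ | ⟨x, y, h⟩
  · rfl
  · have hx : σ x = x := h1
    have hy : σ y = y := h2
    rw [Point.algEquiv_smul_def]
    simp only [Point.map_some]
    congr

end Fermat.Agent.S58
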