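import Fermat.Agent.S58.GCH
import Fermat.Agent.S58.EC.RedA

/-!
# S58 (E1): the Frobenius relation on odd prime-to-`ℓ` torsion of `E(ℚ̄)`, at ALL good primes `ℓ`
-/

set_option autoImplicit false

namespace Fermat.Agent.S58

open WeierstrassCurve WeierstrassCurve.Affine

/-- (E1) `σ² Q - a_ℓ σ Q + ℓ Q = 0` for a Frobenius lift `σ` at a good prime `ℓ`, `Q ∈ E[m]`, `m` odd, `ℓ ∤ m`. -/
theorem frob_rel (W : WeierstrassCurve ℤ) {ℓ : ℕ} (hℓ : ℓ.Prime) (hΔ : ¬ (ℓ : ℤ) ∣ W.Δ)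
    (A : ValuationSubring Qb) (hA : A.LiesOverPrime ℓ) (σ : GQ) (hσ : A.IsFrobeniusAt σ ℓ)
    {m : ℕ} (hm : Odd m) (hℓm : ¬ ℓ ∣ m) (Q : EP W) (hQ : m • Q = 0) :
    σ • σ • Q - W.apOfModel ℓ • σ • Q + (ℓ : ℤ) • Q = 0 := by
  have : Fact ℓ.Prime := ⟨hℓ⟩
  have hchar := Fermat.Agent.S29.FDFixed.charP_residue A hℓ hA
  have halg := isAlgClosed_kap A
  have hΔ' := delta_kap_ne_zero W hℓ hΔ A hA
  set R := σ • σ • Q - W.apOfModel ℓ • σ • Q + (ℓ : ℤ) • Q with hR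
  have hσm : ∀ P : EP W, m • P = 0 → m • (σ • P) = 0 := by
    intro P hP
    rw [← smul_zero σ, ← hP, smul_comm]
  have hmR : m • R = 0 := by
    rw [hR, nsmul_add, nsmul_sub, hσm _ (hσm _ hQ), smul_comm m (W.apOfModel ℓ), hσm _ hQ,
      smul_comm m (ℓ : ℤ), hQ, zsmul_zero, zsmul_zero, sub_zero, add_zero]
  have hred : redA W A hΔ' ((2 : ℤ) • R) = 0 := by
    rw [map_zsmul, hR, map_add, map_sub, map_zsmul, map_zsmul, redA_frob W A hΔ' σ hσ,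
      redA_frob W A hΔ' σ hσ]
    exact gch W ℓ hΔ (Kap A) (redA W A hΔ' Q)
  have hmk : (m : Kap A) ≠ 0 := by
    rw [Ne, CharP.cast_eq_zero_iff (Kap A) ℓ]
    exact hℓm
  have h2R : (2 : ℤ) • R = 0 :=
    Red.eq_zero_of_red_eq_zero (ctxA W A hΔ') hmk _ (by rw [smul_comm, hmR, smul_zero]) hred
  obtain ⟨k, hk⟩ := hm
  have : R = m • R - (k : ℤ) • ((2 : ℤ) • R) := by
    rw [hk, smul_smul, ← natCast_zsmul, ← sub_smul]
    push_cast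
    rw [show (2 * (k : ℤ) + 1 - k * 2) = 1 by ring, one_smul]
  rw [this, hmR, h2R, zsmul_zero, sub_zero]

end Fermat.Agent.S58
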