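import Fermat.Agent.S05.KernelRed

/-!
# S58/EC: a uniform description of the sum of two affine points of a general Weierstrass equation

`l` is "the slope" of `(x₁, y₁), (x₂, y₂)` iff `l (x₁ - x₂) = y₁ - y₂` and
`l (y₁ - negY x₂ y₂) = x₁² + x₁ x₂ + x₂² + a₂ (x₁ + x₂) + a₄ - a₁ y₁`.
-/

set_option autoImplicit false
set_option linter.unusedSectionVars false

namespace Fermat.Agent.S58.Red

open WeierstrassCurve WeierstrassCurve.Affine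

variable {F : Type*} [Field F] [DecidableEq F] {V : Affine F}

theorem slope_eq {x₁ y₁ x₂ y₂ l : F} (hne : ¬ (x₁ = x₂ ∧ y₁ = V.negY x₂ y₂))
    (hl1 : l * (x₁ - x₂) = y₁ - y₂)
    (hl2 : l * (y₁ - V.negY x₂ y₂)
      = x₁ ^ 2 + x₁ * x₂ + x₂ ^ 2 + V.a₂ * (x₁ + x₂) + V.a₄ - V.a₁ * y₁) :
    V.slope x₁ x₂ y₁ y₂ = l := by
  by_cases hx : x₁ = x₂
  · subst hx
    have hy : y₁ ≠ V.negY x₁ y₂ := fun h => hne ⟨rfl, h⟩
    have hy12 : y₁ = y₂ := by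
      have : y₁ - y₂ = 0 := by rw [← hl1]; ring
      exact sub_eq_zero.1 this
    subst hy12
    rw [slope_of_Y_ne rfl hy, div_eq_iff (sub_ne_zero.2 hy)]
    linear_combination -hl2
  · rw [slope_of_X_ne hx, div_eq_iff (sub_ne_zero.2 hx)]
    exact hl1.symm

theorem exists_slope {x₁ y₁ x₂ y₂ : F} (h₁ : V.Equation x₁ y₁) (h₂ : V.Equation x₂ y₂)
    (hne : ¬ (x₁ = x₂ ∧ y₁ = V.negY x₂ y₂)) :
    ∃ l : F, l * (x₁ - x₂) = y₁ - y₂ ∧ l * (y₁ - V.negY x₂ y₂)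
      = x₁ ^ 2 + x₁ * x₂ + x₂ ^ 2 + V.a₂ * (x₁ + x₂) + V.a₄ - V.a₁ * y₁ := by
  rw [equation_iff] at h₁ h₂
  by_cases hx : x₁ = x₂
  · subst hx
    have hy : y₁ - V.negY x₁ y₂ ≠ 0 := fun h => hne ⟨rfl, sub_eq_zero.1 h⟩
    have hy12 : y₁ = y₂ := by
      have : (y₁ - y₂) * (y₁ - V.negY x₁ y₂) = 0 := by
        simp only [negY]; linear_combination h₁ - h₂
      rcases mul_eq_zero.1 this with h | h
      · exact sub_eq_zero.1 h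
      · exact absurd h hy
    subst hy12
    exact ⟨(x₁ ^ 2 + x₁ * x₁ + x₁ ^ 2 + V.a₂ * (x₁ + x₁) + V.a₄ - V.a₁ * y₁) /
      (y₁ - V.negY x₁ y₁), by ring, div_mul_cancel₀ _ hy⟩
  · have hx' : x₁ - x₂ ≠ 0 := sub_ne_zero.2 hx
    refine ⟨(y₁ - y₂) / (x₁ - x₂), by field_simp, ?_⟩
    rw [div_mul_eq_mul_div, div_eq_iff hx']
    simp only [negY]
    linear_combination h₁ - h₂

theorem add_some_of_slope {x₁ y₁ x₂ y₂ l : F}
    (h₁ : V.Nonsingular x₁ y₁) (h₂ : V.Nonsingular x₂ y₂)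
    (hne : ¬ (x₁ = x₂ ∧ y₁ = V.negY x₂ y₂))
    (hl1 : l * (x₁ - x₂) = y₁ - y₂)
    (hl2 : l * (y₁ - V.negY x₂ y₂)
      = x₁ ^ 2 + x₁ * x₂ + x₂ ^ 2 + V.a₂ * (x₁ + x₂) + V.a₄ - V.a₁ * y₁) :
    ∃ h₃, (Point.some x₁ y₁ h₁ + Point.some x₂ y₂ h₂ : V.Point) =
      Point.some (V.addX x₁ x₂ l) (V.addY x₁ x₂ y₁ l) h₃ := by
  have hs := slope_eq hne hl1 hl2
  have h3 := nonsingular_add h₁ h₂ hne
  rw [hs] at h3
  refine ⟨h3, ?_⟩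
  rw [Point.add_some hne]
  simp only [Point.some.injEq]
  rw [hs]
  exact ⟨rfl, rfl⟩

end Fermat.Agent.S58.Red
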